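/-
MLT / [L2] / P8 (helper1), part 1: **descent of divisor classes** (the `sl`-independent half of (S4)).

* `mltj8_place_open`   : the stabiliser of a place of `F_N = ℚ̄(X₀(N))` in `G_ℚ` is OPEN: it contains the subgroup
                         fixing a finite extension of `ℚ` pointwise (weak approximation + `tdd_exists_finite_fixing`);
* `mltj8_divisor_open` : the same for divisors;
* **`mltj8_exists_stable_divisor`** : for ANY subgroup `H ≤ G_ℚ`, a class `x ∈ J₀(N)(ℚ̄)` fixed by `H` contains an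
  `H`-stable divisor of degree `0` (the cusp `∞` is rational: the functions `t_σ` with
  `div t_σ = σ D₀ - D₀` normalised by leading `q`-coefficient `1` form a cocycle, trivial on an open normal subgroup;
  Hilbert 90 = helper9's `dli_h90`).
-/
import Mathlib
import Fermat.Agent.Lib.Delta.Toric.Descent
import Fermat.Agent.Lib.Ihara.B.Cmp.Stab
import Fermat.Agent.Lib.T3.Pull.Approx
import Fermat.Agent.Lib.T3.Pull.Torsion
import Fermat.Agent.Lib.T3.Hecke.Modular

set_option autoImplicit false
set_option linter.unusedSectionVars false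
set_option linter.unusedVariables false
set_option linter.style.haveILetI false
set_option synthInstance.maxHeartbeats 400000

open HahnSeries ModularCurve AlgebraicCurve Fermat.Agent.T1 Fermat.Agent.T2 Fermat.Agent.TW
  Fermat.Agent.Alpha Fermat.Agent.Delta Fermat.Agent.T3 Fermat.Agent.Ihara Fermat.Agent.Curve

noncomputable section

namespace Fermat.Agent.MLT

local notation "Qb" => AlgebraicClosure ℚ
local notation "GQ" => (AlgebraicClosure ℚ ≃ₐ[ℚ] AlgebraicClosure ℚ)

variable (N : ℕ) [NeZero N]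

/-- **place stabilisers are open**: every place of `F_N` is fixed by the absolute Galois group of a number
field -/
theorem mltj8_place_open (P : Place Qb ↥(modularFunctionFieldBar N)) :
    ∃ L : IntermediateField ℚ Qb, FiniteDimensional ℚ L ∧
      ∀ σ : GQ, (∀ a ∈ L, σ a = a) → arithmeticGalois (modularFunctionFieldFull N) σ • P = P := by
  classical
  obtain ⟨g₀, hg₀, hfix₀, hP₀⟩ := ihbc_exists_fixed_fun N P
  have hfin := ihbc_finite_ord_ne_zero (K := Qb) hg₀
  set S : Finset (Place Qb ↥(modularFunctionFieldBar N)) := hfin.toFinset.erase P with hS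
  obtain ⟨t, ht0, htP, htS⟩ := t3p_weak_approx (t3h_gen N) P S (Finset.notMem_erase P _)
  obtain ⟨L, hL, hLt⟩ := tdd_exists_finite_fixing N t
  refine ⟨L, hL, fun σ hσ => ?_⟩
  set g := arithmeticGalois (modularFunctionFieldFull N) σ with hg
  by_contra hne
  have h1 : (g • P).ord g₀ ≠ 0 := by
    have h2 := SemilinearAut.ord_smul g P g₀
    rw [hfix₀ σ] at h2
    rw [h2]
    exact hP₀
  have hmem : g • P ∈ S := by
    rw [hS, Finset.mem_erase]
    exact ⟨hne, hfin.mem_toFinset.mpr h1⟩
  have h3 : (g • P).ord t = 1 := by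
    have h2 := SemilinearAut.ord_smul g P t
    have h4 : g • t = t := hLt σ hσ
    rw [h4] at h2
    rw [h2, htP]
  rw [htS _ hmem] at h3
  exact zero_ne_one h3

/-- **divisor stabilisers are open** -/
theorem mltj8_divisor_open (D : Divisor Qb ↥(modularFunctionFieldBar N)) :
    ∃ L : IntermediateField ℚ Qb, FiniteDimensional ℚ L ∧
      ∀ σ : GQ, (∀ a ∈ L, σ a = a) → arithmeticGalois (modularFunctionFieldFull N) σ • D = D := by
  classical
  induction D using Finsupp.induction with
  | zero => exact ⟨⊥, inferInstance, fun σ _ => smul_zero _⟩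
  | single_add P n D _ _ ih =>
    obtain ⟨L₁, hL₁, h₁⟩ := mltj8_place_open N P
    obtain ⟨L₂, hL₂, h₂⟩ := ih
    haveI := hL₁
    haveI := hL₂
    refine ⟨L₁ ⊔ L₂, inferInstance, fun σ hσ => ?_⟩
    rw [smul_add, SemilinearAut.smul_single,
      h₁ σ (fun a ha => hσ a ((le_sup_left : L₁ ≤ L₁ ⊔ L₂) ha)),
      h₂ σ (fun a ha => hσ a ((le_sup_right : L₂ ≤ L₁ ⊔ L₂) ha))]

/-! ### The descent -/

/-- the order of a Galois conjugate function -/
theorem mltj8_ord_smul (σ : GQ) (f : ↥(modularFunctionFieldBar N))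
    (w : Place Qb ↥(modularFunctionFieldBar N)) :
    w.ord (arithmeticRingAut (modularFunctionFieldFull N) σ f)
      = ((arithmeticGalois (modularFunctionFieldFull N) σ)⁻¹ • w).ord f := by
  have h := SemilinearAut.ord_smul (arithmeticGalois (modularFunctionFieldFull N) σ)
    ((arithmeticGalois (modularFunctionFieldFull N) σ)⁻¹ • w) f
  rw [smul_inv_smul] at h
  exact h

/-- two non-zero functions with the same divisor and the same leading coefficient are equal -/
theorem mltj8_eq_of_ord_eq {t t' : ↥(modularFunctionFieldBar N)} (ht : t ≠ 0) (ht' : t' ≠ 0)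
    (hord : ∀ w : Place Qb ↥(modularFunctionFieldBar N), w.ord t = w.ord t')
    (hlc : dliLc N t = dliLc N t') : t = t' := by
  have h0 : ∀ w : Place Qb ↥(modularFunctionFieldBar N), w.ord (t * t'⁻¹) = 0 := by
    intro w
    rw [w.ord_mul ht (inv_ne_zero ht'), w.ord_inv, hord w]
    ring
  obtain ⟨c, hc⟩ := t3p_const_of_ord_eq_zero (t3h_gen N) h0
  have h1 : dliLc N (t * t'⁻¹) = 1 := by
    rw [dliLc_mul, dliLc_inv N ht', hlc, mul_inv_cancel₀ (dliLc_ne_zero N ht')]
  rw [← hc, dliLc_algebraMap] at h1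
  rw [h1, map_one] at hc
  have h2 : t * t'⁻¹ * t' = t' := by rw [← hc, one_mul]
  rw [inv_mul_cancel_right₀ ht'] at h2
  exact h2

variable (H : Subgroup GQ)

/-- the coefficientwise action of `H ≤ G_ℚ` on the function field -/
def mltj8Rho : ↥H →* (↥(modularFunctionFieldBar N) ≃+* ↥(modularFunctionFieldBar N)) where
  toFun σ := arithmeticRingAut (modularFunctionFieldFull N) ((σ : ↥H) : GQ)
  map_one' := by
    have h := map_one (arithmeticGalois (L := Qb) (modularFunctionFieldFull N))
    have h2 := congrArg SemilinearAut.toRingAut h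
    exact h2
  map_mul' σ τ := by
    have h := map_mul (arithmeticGalois (L := Qb) (modularFunctionFieldFull N))
      ((σ : ↥H) : GQ) ((τ : ↥H) : GQ)
    have h2 := congrArg SemilinearAut.toRingAut h
    exact h2

theorem mltj8Rho_apply (σ : ↥H) (f : ↥(modularFunctionFieldBar N)) :
    mltj8Rho N H σ f = arithmeticRingAut (modularFunctionFieldFull N) ((σ : ↥H) : GQ) f := rfl

/-- **descent**: a divisor class fixed by a subgroup `H` of `G_ℚ` contains an `H`-stable divisor -/
theorem mltj8_exists_stable_divisor (x : JZero N) (hx : ∀ σ ∈ H, σ • x = x) :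
    ∃ D : Divisor.degZero (K := Qb) (F := ↥(modularFunctionFieldBar N)), Pic0.mk D = x ∧
      ∀ σ ∈ H, arithmeticGalois (modularFunctionFieldFull N) σ
        • (D : Divisor Qb ↥(modularFunctionFieldBar N)) = D := by
  classical
  obtain ⟨D₀, rfl⟩ := Pic0.mk_surjective x
  -- the functions `t_σ`
  have hex : ∀ σ : ↥H, ∃ t : ↥(modularFunctionFieldBar N), t ≠ 0 ∧
      (∀ w : Place Qb ↥(modularFunctionFieldBar N), w.ord t
        = (arithmeticGalois (modularFunctionFieldFull N) ((σ : ↥H) : GQ)
            • (D₀ : Divisor Qb ↥(modularFunctionFieldBar N))) w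
          - (D₀ : Divisor Qb ↥(modularFunctionFieldBar N)) w) ∧
      dliLc N t = 1 := by
    intro σ
    have h1 := hx σ σ.2
    rw [galois_smul_pic0_def, SemilinearAut.pic0_smul_mk] at h1
    have h2 := QuotientAddGroup.eq.mp h1.symm
    rw [AddSubgroup.mem_addSubgroupOf] at h2
    obtain ⟨f, hf0, hf⟩ := h2
    have hlc0 : dliLc N f ≠ 0 := dliLc_ne_zero N hf0
    refine ⟨f * algebraMap Qb ↥(modularFunctionFieldBar N) (dliLc N f)⁻¹,
      mul_ne_zero hf0 ((map_ne_zero _).mpr (inv_ne_zero hlc0)), fun w => ?_, ?_⟩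
    · rw [w.ord_mul hf0 ((map_ne_zero _).mpr (inv_ne_zero hlc0)), PlaceAux.ord_algebraMap,
        add_zero, ← hf w]
      simp only [AddSubgroup.coe_add, NegMemClass.coe_neg, Finsupp.add_apply, Finsupp.neg_apply,
        SemilinearAut.coe_degZeroSMulHom]
      ring
    · rw [dliLc_mul, dliLc_algebraMap, mul_inv_cancel₀ hlc0]
  choose t ht0 htord htlc using hex
  -- the cocycle relation
  have hcoc : ∀ σ τ : ↥H, t (σ * τ) = t σ * mltj8Rho N H σ (t τ) := by
    intro σ τ
    have hne : t σ * mltj8Rho N H σ (t τ) ≠ 0 :=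
      mul_ne_zero (ht0 σ) ((map_ne_zero _).mpr (ht0 τ))
    refine mltj8_eq_of_ord_eq N (ht0 _) hne (fun w => ?_) ?_
    · rw [w.ord_mul (ht0 σ) ((map_ne_zero _).mpr (ht0 τ)), htord, htord, mltj8Rho_apply,
        mltj8_ord_smul, htord, Subgroup.coe_mul, map_mul, mul_smul,
        SemilinearAut.divisor_smul_apply
          (arithmeticGalois (modularFunctionFieldFull N) ((σ : ↥H) : GQ))
          (arithmeticGalois (modularFunctionFieldFull N) ((τ : ↥H) : GQ)
            • (D₀ : Divisor Qb ↥(modularFunctionFieldBar N))) w,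
        SemilinearAut.divisor_smul_apply
          (arithmeticGalois (modularFunctionFieldFull N) ((σ : ↥H) : GQ))
          (D₀ : Divisor Qb ↥(modularFunctionFieldBar N)) w]
      ring
    · rw [htlc, dliLc_mul, htlc, mltj8Rho_apply, dliLc_arith, htlc, map_one, one_mul]
  -- an open normal subgroup fixing `D₀`
  obtain ⟨L, hL, hLfix⟩ := mltj8_divisor_open N (D₀ : Divisor Qb ↥(modularFunctionFieldBar N))
  haveI := hL
  haveI : Normal ℚ Qb := dli_normal_qbar
  haveI : FiniteDimensional ℚ ↥(IntermediateField.normalClosure ℚ ↥L Qb) :=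
    normalClosure.is_finiteDimensional ℚ ↥L Qb
  haveI : Normal ℚ ↥(IntermediateField.normalClosure ℚ ↥L Qb) := normalClosure.normal ℚ ↥L Qb
  obtain ⟨N₀, hn, hf, hmem⟩ := dli_fixing_normal_finiteIndex
    (IntermediateField.normalClosure ℚ ↥L Qb) H.subtype
  haveI := hn
  haveI := hf
  have htN : ∀ ν ∈ N₀, t ν = 1 := by
    intro ν hν
    refine mltj8_eq_of_ord_eq N (ht0 ν) one_ne_zero (fun w => ?_) ?_
    · rw [htord, hLfix ((ν : ↥H) : GQ) (fun a ha =>
        (hmem ν).mp hν a (IntermediateField.le_normalClosure L ha)), sub_self, Place.ord_one]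
    · rw [htlc, dliLc_one]
  -- Hilbert 90
  obtain ⟨h, hh0, hh⟩ := dli_h90 (mltj8Rho N H) N₀
    (((IntermediateField.normalClosure ℚ ↥L Qb).toSubfield.toSubmonoid).map
      ((algebraMap Qb ↥(modularFunctionFieldBar N) : Qb →+* ↥(modularFunctionFieldBar N)) :
        Qb →* ↥(modularFunctionFieldBar N)))
    (by
      rintro ν hν _ ⟨a, ha, rfl⟩
      show mltj8Rho N H ν (algebraMap Qb ↥(modularFunctionFieldBar N) a) = _
      rw [mltj8Rho_apply, arithmeticRingAut_algebraMap]
      have := (hmem ν).mp hν a ha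
      exact congrArg _ this)
    (by
      intro σ hσ
      rw [hmem]
      intro a ha
      have h1 := hσ (algebraMap Qb ↥(modularFunctionFieldBar N) a) ⟨a, ha, rfl⟩
      rw [mltj8Rho_apply, arithmeticRingAut_algebraMap] at h1
      exact (algebraMap Qb ↥(modularFunctionFieldBar N)).injective h1)
    t ht0 hcoc htN
  -- the stable divisor
  set hU : (↥(modularFunctionFieldBar N))ˣ := Units.mk0 h hh0 with hhU
  set E : Divisor.degZero (K := Qb) (F := ↥(modularFunctionFieldBar N)) :=
    ⟨alpfDiv (K := Qb) hU, alpfDiv_degree hU⟩ with hE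
  have hEcl : Pic0.mk E = 0 := by
    unfold Pic0.mk
    rw [QuotientAddGroup.eq_zero_iff, AddSubgroup.mem_addSubgroupOf]
    exact ⟨h, hh0, fun v => alpfDiv_apply hU v⟩
  refine ⟨D₀ + E, by rw [Pic0.mk_add, hEcl, add_zero], fun σ hσ => ?_⟩
  ext w
  have h1 := htord ⟨σ, hσ⟩ w
  have h2 := hh ⟨σ, hσ⟩
  rw [mltj8Rho_apply] at h2
  have h3 : w.ord (arithmeticRingAut (modularFunctionFieldFull N) σ h) + w.ord (t ⟨σ, hσ⟩)
      = w.ord h := by
    rw [← w.ord_mul ((map_ne_zero _).mpr hh0) (ht0 _)]
    exact congrArg w.ord h2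
  rw [mltj8_ord_smul] at h3
  simp only [AddSubgroup.coe_add, smul_add, Finsupp.add_apply]
  rw [SemilinearAut.divisor_smul_apply _ (E : Divisor Qb ↥(modularFunctionFieldBar N)) w]
  show _ + alpfDiv (K := Qb) hU _ = _ + alpfDiv (K := Qb) hU w
  rw [alpfDiv_apply, alpfDiv_apply]
  show _ + ((arithmeticGalois (modularFunctionFieldFull N) σ)⁻¹ • w).ord h = _ + w.ord h
  have h1' : (arithmeticGalois (modularFunctionFieldFull N) σ
      • (D₀ : Divisor Qb ↥(modularFunctionFieldBar N))) w
      = (D₀ : Divisor Qb ↥(modularFunctionFieldBar N)) w + w.ord (t ⟨σ, hσ⟩) := by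
    rw [h1]; ring
  rw [h1']
  linarith

end Fermat.Agent.MLT
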