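/-
MLT / [L2] / P8 (helper1), part 3: **node data at every level, and the normalised position formula**.

* `mltj8_node_level` : a place `P ∈ Σ = mltjSS` is the first branch of a node of EVERY chart 1 at EVERY level `H`;
* `mltj8NodeAt`      : the node datum (`MltJ6NodeAt`) of a node of chart 1, with the normal form of `dlqVert`;
* `mltj8_w_mul_ord`  : `w · v(ϖ) = 1` for every node datum (THICK, helper8's `mltj6_thick`);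
* `mltj8_exists_value` : a place through the node has a non-zero value `θ` of the coordinate `t`;
* **`mltj8_pos_eq`** : (CHAR-I) ⟹ `pos_P(Q) = 1 - v(θ)`.
-/
import Mathlib
import Fermat.Agent.Lib.MLT.L2.P6.Thick
import Fermat.Agent.Lib.MLT.L2.Kill.SS
import Fermat.Agent.Lib.T3.Hecke.Modular

set_option autoImplicit false
set_option linter.unusedSectionVars false
set_option linter.unusedVariables false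
set_option linter.style.haveILetI false
set_option synthInstance.maxHeartbeats 400000
set_option maxHeartbeats 1000000

open HahnSeries ModularCurve Fermat.Agent.T1 Fermat.Agent.T2 Fermat.Agent.T4 Fermat.Agent.TW
  Fermat.Agent.S05Lib Fermat.Agent.S24Lib IntermediateField AlgebraicCurve Fermat.Agent.Curve Module
  Fermat.Agent.S33 Fermat.Agent.S33Q Fermat.Agent.Delta Fermat.Agent.Curve.PlaceAux Fermat.Agent.T3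

noncomputable section

namespace Fermat.Agent.MLT

local notation "Qb" => AlgebraicClosure ℚ
local notation "GQ" => (AlgebraicClosure ℚ ≃ₐ[ℚ] AlgebraicClosure ℚ)

attribute [local instance] t2i_dvr t2i_isAlgClosed t2i_charP t2i_fact
attribute [local instance 10000] dliAlgF dliAlgE

section Level

variable (𝔓 : FFPlace) (K : ℕ) [NeZero K] (hK : ¬ 𝔓.p ∣ K) (h49 : 4 ∣ K ∨ 9 ∣ K)
  (H : Subgroup 𝔓.I) [H.FiniteIndex] {ϖ : ↥(tbFixO 𝔓 H)} (hϖ : Irreducible ϖ) {n : ℕ}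
  (su : T2Setup (t2iBase2Fix 𝔓 H K hK) (Fin n))
  (hx : su.x = t2gaX 𝔓 H K hK (𝔓.p ^ 2)) (hxb : su.xb = (s33qXi 𝔓 K, s33qXi 𝔓 K))

/-- **a supersingular place is the first branch of a node of every chart 1 at every level** -/
theorem mltj8_node_level {P : Place (IsLocalRing.ResidueField ↥𝔓.P) ↥(tbBarF 𝔓 K)}
    (hP : P ∈ mltjSS 𝔓 K hK h49) :
    ∃ Q', (P, Q') ∈ (dlxChart1 𝔓 H hϖ K hK h49 su hx hxb).G.nodes := by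
  obtain ⟨n₁, su₁, hx₁, hxb₁⟩ := s33q_exists_setup_level 𝔓 K hK h49 (⊤ : Subgroup 𝔓.I)
  obtain ⟨Q, hQ⟩ := (mltjSS_iff 𝔓 K hK h49 su₁ hx₁ hxb₁ P).mp hP
  have hs₁ : (P, Q) ∈ (dlxChart1 𝔓 ⊤ (t4cy_irreducible_p 𝔓) K hK h49 su₁ hx₁ hxb₁).G.nodes := hQ
  have hP₁ := (dlxChart1 𝔓 ⊤ (t4cy_irreducible_p 𝔓) K hK h49 su₁ hx₁ hxb₁).node_fin₁ hs₁
  have hP₂ : 0 ≤ P.ord (dlxChart1 𝔓 H hϖ K hK h49 su hx hxb).G.x.1 := by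
    have h1 := hP₁
    rw [dlxChart1_Gx] at h1 ⊢
    exact h1
  exact (dlqc_node_iff_gen 𝔓 K hK (t4cy_irreducible_p 𝔓) hϖ
    (dlxChart1 𝔓 ⊤ (t4cy_irreducible_p 𝔓) K hK h49 su₁ hx₁ hxb₁)
    (dlxChart1 𝔓 H hϖ K hK h49 su hx hxb)
    (dlxLevHom1 𝔓 le_top (t4cy_irreducible_p 𝔓) hϖ K hK h49 su₁ hx₁ hxb₁ su hx hxb)
    (dlqVert 𝔓 ⊤ (t4cy_irreducible_p 𝔓) K hK h49 su₁ hx₁ hxb₁) (dlqVert 𝔓 H hϖ K hK h49 su hx hxb)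
    (dlqlF_D 𝔓 le_top K) P hP₁ hP₂).mp ⟨Q, hs₁⟩

variable {𝔓 K hK h49 H hϖ su hx hxb}

/-- the node datum of a node of chart 1, with the normal form of `dlqVert` -/
def mltj8NodeAt {P Q' : Place (IsLocalRing.ResidueField ↥𝔓.P) ↥(tbBarF 𝔓 K)}
    (hs : (P, Q') ∈ (dlxChart1 𝔓 H hϖ K hK h49 su hx hxb).G.nodes) :
    MltJ6NodeAt 𝔓 K hK h49 H P where
  ϖ := ϖ
  hϖ := hϖ
  n := n
  su := su
  hx := hx
  hxb := hxb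
  Q' := Q'
  hs := hs
  𝒩 := (dlqVert 𝔓 H hϖ K hK h49 su hx hxb).node hs
  h𝒩 := mltj6_vertNode_toDlLocal 𝔓 H hϖ K hK h49 su hx hxb hs

end Level

section Pos

variable {𝔓 : FFPlace} {K : ℕ} [NeZero K] {hK : ¬ 𝔓.p ∣ K} {h49 : 4 ∣ K ∨ 9 ∣ K}
  {H : Subgroup 𝔓.I} [H.FiniteIndex]
  {P : Place (IsLocalRing.ResidueField ↥𝔓.P) ↥(tbBarF 𝔓 K)}

/-- **`w · v(ϖ) = 1`** for every node datum -/
theorem mltj8_w_mul_ord (d : MltJ6NodeAt 𝔓 K hK h49 H P) :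
    (d.𝒩.w : ℚ) * 𝔓.v.ord (((d.ϖ : ↥(tbFixO 𝔓 H)) : ↥(tbFix 𝔓 H)) : Qb) = 1 := by
  have hp0 : ((𝔓.p : ℕ) : ↥(tbFixO 𝔓 H)) ≠ 0 := by
    intro h0
    have h1 := congrArg (fun z : ↥(tbFixO 𝔓 H) => (((z : ↥(tbFix 𝔓 H)) : Qb))) h0
    simp only [ZeroMemClass.coe_zero, SubringClass.coe_natCast] at h1
    exact 𝔓.p_ne_zero h1
  obtain ⟨e, u, hu⟩ := IsDiscreteValuationRing.eq_unit_mul_pow_irreducible hp0 d.hϖ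
  have hpe : (𝔓.p : ↥(tbFix 𝔓 H)) = (((u : ↥(tbFixO 𝔓 H)) : ↥(tbFixO 𝔓 H)) : ↥(tbFix 𝔓 H)) *
      (d.ϖ : ↥(tbFix 𝔓 H)) ^ e := by
    have h1 := congrArg (fun z : ↥(tbFixO 𝔓 H) => (z : ↥(tbFix 𝔓 H))) hu
    simpa using h1
  have hw := mltj6_thick d u.isUnit hpe
  -- valuations
  have hu0 : 𝔓.v.Is ((((u : ↥(tbFixO 𝔓 H)) : ↥(tbFixO 𝔓 H)) : ↥(tbFix 𝔓 H)) : Qb) 0 := by
    have h1 : 𝔓.v.Ge ((((u : ↥(tbFixO 𝔓 H)) : ↥(tbFixO 𝔓 H)) : ↥(tbFix 𝔓 H)) : Qb) 0 :=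
      (mem_tbFixO 𝔓 H _).mp (u : ↥(tbFixO 𝔓 H)).2
    have h2 : 𝔓.v.Ge ((((u⁻¹ : (↥(tbFixO 𝔓 H))ˣ) : ↥(tbFixO 𝔓 H)) : ↥(tbFix 𝔓 H)) : Qb) 0 :=
      (mem_tbFixO 𝔓 H _).mp ((u⁻¹ : (↥(tbFixO 𝔓 H))ˣ) : ↥(tbFixO 𝔓 H)).2
    have h3 : ((((u : ↥(tbFixO 𝔓 H)) : ↥(tbFixO 𝔓 H)) : ↥(tbFix 𝔓 H)) : Qb) *
        ((((u⁻¹ : (↥(tbFixO 𝔓 H))ˣ) : ↥(tbFixO 𝔓 H)) : ↥(tbFix 𝔓 H)) : Qb) = 1 := by
      calc _ = (((((u : ↥(tbFixO 𝔓 H)) * ((u⁻¹ : (↥(tbFixO 𝔓 H))ˣ) : ↥(tbFixO 𝔓 H)) :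
            ↥(tbFixO 𝔓 H)) : ↥(tbFix 𝔓 H)) : Qb)) := rfl
        _ = 1 := by rw [u.mul_inv]; rfl
    have hne : ((((u : ↥(tbFixO 𝔓 H)) : ↥(tbFixO 𝔓 H)) : ↥(tbFix 𝔓 H)) : Qb) ≠ 0 :=
      left_ne_zero_of_mul_eq_one h3
    have hne' : ((((u⁻¹ : (↥(tbFixO 𝔓 H))ˣ) : ↥(tbFixO 𝔓 H)) : ↥(tbFix 𝔓 H)) : Qb) ≠ 0 :=
      right_ne_zero_of_mul_eq_one h3
    have h5 := 𝔓.v.ord_mul' hne hne'
    rw [h3, QVal.ord_one] at h5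
    rcases h1 with h1 | h1
    · exact absurd h1 hne
    rcases h2 with h2 | h2
    · exact absurd h2 hne'
    exact ⟨hne, by linarith⟩
  have hϖ0 : (((d.ϖ : ↥(tbFixO 𝔓 H)) : ↥(tbFix 𝔓 H)) : Qb) ≠ 0 := by
    intro h0
    apply d.hϖ.ne_zero
    apply Subtype.ext
    apply Subtype.ext
    exact h0
  have h6 := hu0.mul ((QVal.is_ord (v := 𝔓.v) hϖ0).pow e)
  have h7 : ((((u : ↥(tbFixO 𝔓 H)) : ↥(tbFixO 𝔓 H)) : ↥(tbFix 𝔓 H)) : Qb) *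
      (((d.ϖ : ↥(tbFixO 𝔓 H)) : ↥(tbFix 𝔓 H)) : Qb) ^ e = (𝔓.p : Qb) := by
    have h8 := congrArg (fun z : ↥(tbFix 𝔓 H) => (z : Qb)) hpe
    simpa using h8.symm
  rw [h7] at h6
  have h9 := h6.unique 𝔓.is_p
  rw [hw]
  linarith

/-- a place through the node has a non-zero value of the coordinate `t` -/
theorem mltj8_exists_value (d : MltJ6NodeAt 𝔓 K hK h49 H P)
    (Q : Place Qb ↥(modularFunctionFieldBar (K * 𝔓.p))) (hthr : mltj6Through d Q) :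
    ∃ θ : Qb, θ ≠ 0 ∧ OrdGE Q (tbPhiF 𝔓 (K * 𝔓.p) H d.𝒩.t -
      algebraMap Qb ↥(modularFunctionFieldBar (K * 𝔓.p)) θ) 1 := by
  have hV : mltj6Res H (K * 𝔓.p) Q ∈ d.𝒩.hor := hthr
  haveI := d.𝒩.P.dvr _ hV.1
  have h0 : dlOrd (mltj6Res H (K * 𝔓.p) Q) d.𝒩.t = 0 := d.𝒩.oH_t hV
  have ht0 : d.𝒩.t ≠ 0 := d.𝒩.t_ne_zero
  have h1 : d.𝒩.t ∈ mltj6Res H (K * 𝔓.p) Q := dl_mem_of_ord_nonneg _ h0.ge
  have h2 : (d.𝒩.t)⁻¹ ∈ mltj6Res H (K * 𝔓.p) Q :=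
    dl_mem_of_ord_nonneg _ (by rw [dlOrd_inv, h0, neg_zero])
  rw [mem_mltj6Res] at h1 h2
  have hΦ0 : tbPhiF 𝔓 (K * 𝔓.p) H d.𝒩.t ≠ 0 := (map_ne_zero _).mpr ht0
  have hord : Q.ord (tbPhiF 𝔓 (K * 𝔓.p) H d.𝒩.t) = 0 := by
    have h3 := ord_nonneg_of_mem Q h1
    rw [map_inv₀] at h2
    have h4 := ord_nonneg_of_mem Q h2
    rw [Q.ord_inv] at h4
    omega
  obtain ⟨θ, hθ⟩ := exists_const_ordGE_one (t3h_gen (K * 𝔓.p)) Q h1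
  refine ⟨θ, ?_, hθ⟩
  rintro rfl
  rw [map_zero, sub_zero] at hθ
  rcases (ordGE_iff Q).mp hθ with h5 | h5
  · exact hΦ0 h5
  · omega

/-- **the normalised position formula**: (CHAR-I) ⟹ `pos_P(Q) = 1 - v(θ)` for a place through the node -/
theorem mltj8_pos_eq (hI : MltJ6CharI) (d : MltJ6NodeAt 𝔓 K hK h49 H P)
    (Q : Place Qb ↥(modularFunctionFieldBar (K * 𝔓.p))) (hthr : mltj6Through d Q) (θ : Qb)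
    (hθ : OrdGE Q (tbPhiF 𝔓 (K * 𝔓.p) H d.𝒩.t -
      algebraMap Qb ↥(modularFunctionFieldBar (K * 𝔓.p)) θ) 1) :
    mltj6Pos 𝔓 K hK h49 P Q = 1 - 𝔓.v.ord θ := by
  have h1 := hI 𝔓 K hK h49 H P d Q _ ⟨hthr, θ, hθ, rfl⟩
  rw [h1, mltj8_w_mul_ord d, div_one]

end Pos

end Fermat.Agent.MLT
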