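/-
MLT / [L2] / P8 (helper1), part 4: **the field `fixed` of `MltjSlope`** for the slope map `mltj6Sl` of P6.

* `mltj8_res_smul`     : the restriction to the level `H` of a place is invariant under `H`;
* `mltj8_value_smul`   : the value of a conjugate function at the conjugate place;
* `mltj8_pos_smul`     : (CHAR-I) ⟹ the position is invariant under the inertia group;
* `mltj8_orbit_int`    : (CHAR-I, II) ⟹ `[I : H] · [H : S] · pos_P(Q) ∈ ℤ` for a subgroup `S ≤ H` fixing `Q`;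
* **`mltj8_fixed`**    : (CHAR-I, II) ⟹ the literal field `fixed` of `MltjSlope` for `sl := mltj6Sl 𝔓 K hK h49`:
  a class fixed by `U ∩ I` contains a `U ∩ I`-stable divisor (descent, `mltj8_exists_stable_divisor`), and
  `e · sl(D)_P ∈ ℤ` with `e = [I : U ∩ I]` (sum over the orbits; orbit–stabiliser).
-/
import Mathlib
import Fermat.Agent.Lib.MLT.L2.P8.Nodes
import Fermat.Agent.Lib.MLT.L2.P8.Descent
import Fermat.Agent.Lib.Alpha.Inv.Descend

set_option autoImplicit false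
set_option linter.unusedSectionVars false
set_option linter.unusedVariables false
set_option linter.style.haveILetI false
set_option synthInstance.maxHeartbeats 400000
set_option maxHeartbeats 1000000

open HahnSeries ModularCurve Fermat.Agent.T1 Fermat.Agent.T2 Fermat.Agent.T4 Fermat.Agent.TW
  Fermat.Agent.S05Lib Fermat.Agent.S24Lib IntermediateField AlgebraicCurve Fermat.Agent.Curve Module
  Fermat.Agent.S33 Fermat.Agent.S33Q Fermat.Agent.Delta Fermat.Agent.Curve.PlaceAux Fermat.Agent.T3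
  Fermat.Agent.Alpha

noncomputable section

namespace Fermat.Agent.MLT

local notation "Qb" => AlgebraicClosure ℚ
local notation "GQ" => (AlgebraicClosure ℚ ≃ₐ[ℚ] AlgebraicClosure ℚ)

attribute [local instance] t2i_dvr t2i_isAlgClosed t2i_charP t2i_fact
attribute [local instance 10000] dliAlgF dliAlgE

section Inv

variable {𝔓 : FFPlace} (N : ℕ) [NeZero N]

/-- the order of a fixed function at a conjugate place -/
theorem mltj8_ord_smul_fixed (g : SemilinearAut Qb ↥(modularFunctionFieldBar N))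
    (Q : Place Qb ↥(modularFunctionFieldBar N)) (y : ↥(modularFunctionFieldBar N))
    (hy : g • y = y) : (g • Q).ord y = Q.ord y := by
  have h := SemilinearAut.ord_smul g Q y
  rwa [hy] at h

/-- the restriction to the level `H` is invariant under `H` -/
theorem mltj8_res_smul (H : Subgroup 𝔓.I) {σ : 𝔓.I} (hσ : σ ∈ H)
    (Q : Place Qb ↥(modularFunctionFieldBar N)) :
    mltj6Res H N (arithmeticGalois (modularFunctionFieldFull N) ((σ : 𝔓.I) : GQ) • Q)
      = mltj6Res H N Q := by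
  ext f
  rw [mem_mltj6Res, mem_mltj6Res, PlaceAux.mem_iff, PlaceAux.mem_iff,
    mltj8_ord_smul_fixed N _ Q _ (alpi_smul_tbPhiF 𝔓 N H hσ f)]

/-- the value of a conjugate function at the conjugate place -/
theorem mltj8_value_smul (σ : GQ) (Q : Place Qb ↥(modularFunctionFieldBar N))
    (y : ↥(modularFunctionFieldBar N)) (θ : Qb)
    (h : OrdGE Q (y - algebraMap Qb ↥(modularFunctionFieldBar N) θ) 1) :
    OrdGE (arithmeticGalois (modularFunctionFieldFull N) σ • Q)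
      (arithmeticGalois (modularFunctionFieldFull N) σ • y
        - algebraMap Qb ↥(modularFunctionFieldBar N) (σ θ)) 1 := by
  have e : arithmeticGalois (modularFunctionFieldFull N) σ
      • (y - algebraMap Qb ↥(modularFunctionFieldBar N) θ)
      = arithmeticGalois (modularFunctionFieldFull N) σ • y
        - algebraMap Qb ↥(modularFunctionFieldBar N) (σ θ) := by
    rw [SemilinearAut.smul_def, map_sub]
    congr 1
    exact arithmeticRingAut_algebraMap (modularFunctionFieldFull N) σ θ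
  rw [← e, ordGE_iff, SemilinearAut.ord_smul, smul_eq_zero_iff_eq]
  exact (ordGE_iff Q).mp h

end Inv

section Pos

variable {𝔓 : FFPlace} {K : ℕ} [NeZero K] {hK : ¬ 𝔓.p ∣ K} {h49 : 4 ∣ K ∨ 9 ∣ K}

/-- a position datum at a level `H` is transported by the elements of `H` -/
theorem mltj8_posAt_smul {H : Subgroup 𝔓.I} [H.FiniteIndex]
    {P : Place (IsLocalRing.ResidueField ↥𝔓.P) ↥(tbBarF 𝔓 K)} (d : MltJ6NodeAt 𝔓 K hK h49 H P)
    {σ : 𝔓.I} (hσ : σ ∈ H) (Q : Place Qb ↥(modularFunctionFieldBar (K * 𝔓.p))) (r : ℚ)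
    (h : MltJ6PosAt d Q r) :
    MltJ6PosAt d (arithmeticGalois (modularFunctionFieldFull (K * 𝔓.p)) ((σ : 𝔓.I) : GQ) • Q) r := by
  obtain ⟨hthr, θ, hθ, hr⟩ := h
  refine ⟨?_, ((σ : 𝔓.I) : GQ) θ, ?_, ?_⟩
  · unfold mltj6Through
    rw [mltj8_res_smul (K * 𝔓.p) H hσ Q]
    exact hthr
  · have h1 := mltj8_value_smul (K * 𝔓.p) ((σ : 𝔓.I) : GQ) Q _ θ hθ
    rwa [alpi_smul_tbPhiF 𝔓 (K * 𝔓.p) H hσ] at h1
  · rw [hr]
    by_cases hθ0 : θ = 0
    · rw [hθ0, map_zero]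
    · rw [(𝔓.is_D (𝔓.I_le_D σ.2) (QVal.is_ord (v := 𝔓.v) hθ0)).2]

/-- **the position is invariant under the inertia group** -/
theorem mltj8_pos_smul (hI : MltJ6CharI) (σ : 𝔓.I)
    (P : Place (IsLocalRing.ResidueField ↥𝔓.P) ↥(tbBarF 𝔓 K))
    (Q : Place Qb ↥(modularFunctionFieldBar (K * 𝔓.p))) :
    mltj6Pos 𝔓 K hK h49 P
        (arithmeticGalois (modularFunctionFieldFull (K * 𝔓.p)) ((σ : 𝔓.I) : GQ) • Q)
      = mltj6Pos 𝔓 K hK h49 P Q := by
  classical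
  by_cases hex : ∃ r : ℚ, ∃ d : MltJ6NodeAt 𝔓 K hK h49 ⊤ P, MltJ6PosAt d Q r
  · obtain ⟨r, d, h⟩ := hex
    rw [hI 𝔓 K hK h49 ⊤ P d Q r h,
      hI 𝔓 K hK h49 ⊤ P d _ r (mltj8_posAt_smul d (Subgroup.mem_top σ) Q r h)]
  · have hex' : ¬ ∃ r : ℚ, ∃ d : MltJ6NodeAt 𝔓 K hK h49 ⊤ P, MltJ6PosAt d
        (arithmeticGalois (modularFunctionFieldFull (K * 𝔓.p)) ((σ : 𝔓.I) : GQ) • Q) r := by
      rintro ⟨r, d, h⟩
      apply hex
      refine ⟨r, d, ?_⟩
      have h1 := mltj8_posAt_smul d (Subgroup.mem_top σ⁻¹) _ r h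
      rwa [← mul_smul, ← map_mul, Subgroup.coe_inv, inv_mul_cancel, map_one, one_smul] at h1
    unfold mltj6Pos
    rw [dif_neg hex, dif_neg hex']

/-- **orbit integrality**: if the subgroup `S` of the level group `H` fixes the place `Q` then
`[I : H] · [H : S] · pos_P(Q) ∈ ℤ` -/
theorem mltj8_orbit_int (hI : MltJ6CharI) (hII : MltJ6CharII) {H : Subgroup 𝔓.I} [H.FiniteIndex]
    {P : Place (IsLocalRing.ResidueField ↥𝔓.P) ↥(tbBarF 𝔓 K)} (d : MltJ6NodeAt 𝔓 K hK h49 H P)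
    (Q : Place Qb ↥(modularFunctionFieldBar (K * 𝔓.p))) (S : Subgroup ↥H) (hS0 : S.index ≠ 0)
    (hS : ∀ τ ∈ S, arithmeticGalois (modularFunctionFieldFull (K * 𝔓.p))
      (((τ : ↥H) : 𝔓.I) : GQ) • Q = Q) :
    ∃ n : ℤ, ((H.index : ℚ) * (S.index : ℚ)) * mltj6Pos 𝔓 K hK h49 P Q = n := by
  by_cases hthr : mltj6Through d Q
  · obtain ⟨θ, hθ0, hθ⟩ := mltj8_exists_value d Q hthr
    rw [mltj8_pos_eq hI d Q hthr θ hθ]
    set S' : Subgroup 𝔓.I := S.map H.subtype with hS'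
    have hidx : S'.index = S.index * H.index := Subgroup.index_map_subtype S
    haveI : S'.FiniteIndex := ⟨by
      rw [hidx]
      exact Nat.mul_ne_zero hS0 Subgroup.FiniteIndex.index_ne_zero⟩
    have hfix : ∀ σ ∈ S', ((σ : 𝔓.I) : GQ) θ = θ := by
      rintro σ ⟨τ, hτ, rfl⟩
      have h1 := mltj8_value_smul (K * 𝔓.p) (((τ : ↥H) : 𝔓.I) : GQ) Q _ θ hθ
      rw [hS τ hτ, alpi_smul_tbPhiF 𝔓 (K * 𝔓.p) H τ.2] at h1
      exact (const_unique_of_ordGE_one Q hθ h1).symm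
    obtain ⟨n, hn⟩ := FFPlace.Unr.index_mul_ord_int 𝔓 𝔓.lf_unr S' hθ0 hfix
    rw [hidx] at hn
    refine ⟨(H.index : ℤ) * (S.index : ℤ) - n, ?_⟩
    push_cast at hn ⊢
    rw [← hn]
    ring
  · rw [hII 𝔓 K hK h49 H P d Q hthr, mul_zero]
    exact ⟨0, by simp⟩

end Pos

section Main

variable (𝔓 : FFPlace) (K : ℕ) [NeZero K] (hK : ¬ 𝔓.p ∣ K) (h49 : 4 ∣ K ∨ 9 ∣ K)

/-- a rational number which is an integer -/
def MltJ8IsInt (x : ℚ) : Prop := ∃ n : ℤ, x = n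

theorem MltJ8IsInt.add {x y : ℚ} (hx : MltJ8IsInt x) (hy : MltJ8IsInt y) : MltJ8IsInt (x + y) := by
  obtain ⟨a, rfl⟩ := hx
  obtain ⟨b, rfl⟩ := hy
  exact ⟨a + b, by push_cast; ring⟩

theorem MltJ8IsInt.zero : MltJ8IsInt 0 := ⟨0, by simp⟩

/-- the action of the level group `H` on the places of `X₀(N)_{ℚ̄}` -/
def mltj8Act (N : ℕ) [NeZero N] (H : Subgroup 𝔓.I) :
    ↥H →* SemilinearAut Qb ↥(modularFunctionFieldBar N) :=
  (arithmeticGalois (L := Qb) (modularFunctionFieldFull N)).comp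
    ((Subgroup.subtype 𝔓.I).comp (Subgroup.subtype H))

theorem mltj8Act_apply (N : ℕ) [NeZero N] (H : Subgroup 𝔓.I) (τ : ↥H) :
    mltj8Act 𝔓 N H τ = arithmeticGalois (modularFunctionFieldFull N) (((τ : ↥H) : 𝔓.I) : GQ) := rfl

/-- **the sum over an `H`-stable divisor of an `H`-invariant function with the orbit integrality is
integral** -/
theorem mltj8_sum_int (N : ℕ) [NeZero N] (H : Subgroup 𝔓.I) [H.FiniteIndex]
    (D : Divisor Qb ↥(modularFunctionFieldBar N))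
    (hD : ∀ τ : ↥H, mltj8Act 𝔓 N H τ • D = D)
    (f : Place Qb ↥(modularFunctionFieldBar N) → ℚ)
    (hf : ∀ (τ : ↥H) (Q : Place Qb ↥(modularFunctionFieldBar N)), f (mltj8Act 𝔓 N H τ • Q) = f Q)
    (hint : ∀ (Q : Place Qb ↥(modularFunctionFieldBar N)) (S : Subgroup ↥H), S.index ≠ 0 →
      (∀ τ ∈ S, mltj8Act 𝔓 N H τ • Q = Q) →
      MltJ8IsInt (((H.index : ℚ) * (S.index : ℚ)) * f Q)) :
    MltJ8IsInt ((H.index : ℚ) * D.sum fun Q n => (n : ℚ) * f Q) := by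
  classical
  letI : MulAction ↥H (Place Qb ↥(modularFunctionFieldBar N)) :=
    MulAction.compHom _ (mltj8Act 𝔓 N H)
  have hsmul : ∀ (τ : ↥H) (Q : Place Qb ↥(modularFunctionFieldBar N)),
      τ • Q = mltj8Act 𝔓 N H τ • Q := fun _ _ => rfl
  set R : Setoid (Place Qb ↥(modularFunctionFieldBar N)) :=
    MulAction.orbitRel ↥H (Place Qb ↥(modularFunctionFieldBar N)) with hR
  have hDinv : ∀ (τ : ↥H) (Q : Place Qb ↥(modularFunctionFieldBar N)),
      D (τ • Q) = D Q := by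
    intro τ Q
    have h1 := SemilinearAut.divisor_smul_apply_smul (mltj8Act 𝔓 N H τ) D Q
    rw [hD τ] at h1
    exact h1
  rw [Finsupp.sum, Finset.sum_partition R, Finset.mul_sum]
  refine Finset.sum_induction _ MltJ8IsInt (fun _ _ => MltJ8IsInt.add) MltJ8IsInt.zero ?_
  intro c hc
  obtain ⟨Q₀, hQ₀, rfl⟩ := Finset.mem_image.mp hc
  -- the terms of the inner sum are all equal
  have hconst : ∀ y ∈ D.support.filter (fun y => (Quotient.mk R y) = Quotient.mk R Q₀),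
      ((D y : ℤ) : ℚ) * f y = ((D Q₀ : ℤ) : ℚ) * f Q₀ := by
    intro y hy
    have h1 : R y Q₀ := Quotient.exact (Finset.mem_filter.mp hy).2
    rw [hR, MulAction.orbitRel_apply] at h1
    obtain ⟨τ, hτ⟩ := h1
    have hτ' : τ • Q₀ = y := hτ
    rw [← hτ', hDinv τ Q₀, hsmul, hf τ Q₀]
  rw [Finset.sum_congr rfl hconst, Finset.sum_const, nsmul_eq_mul]
  -- the cardinality of the orbit
  have hcard : (D.support.filter (fun y => (Quotient.mk R y) = Quotient.mk R Q₀)).card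
      = (MulAction.stabilizer ↥H Q₀).index := by
    rw [MulAction.index_stabilizer, ← Set.ncard_coe_finset]
    congr 1
    ext y
    rw [Finset.mem_coe, Finset.mem_filter]
    constructor
    · rintro ⟨-, h1⟩
      have h2 : R y Q₀ := Quotient.exact h1
      rwa [hR, MulAction.orbitRel_apply] at h2
    · rintro ⟨τ, hτ⟩
      have hτ' : τ • Q₀ = y := hτ
      refine ⟨?_, Quotient.sound ?_⟩
      · rw [Finsupp.mem_support_iff, ← hτ', hDinv τ Q₀]
        exact Finsupp.mem_support_iff.mp hQ₀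
      · show R y Q₀
        rw [hR, MulAction.orbitRel_apply]
        exact ⟨τ, hτ⟩
  have hcard0 : (MulAction.stabilizer ↥H Q₀).index ≠ 0 := by
    rw [← hcard]
    refine Finset.card_ne_zero.mpr ⟨Q₀, Finset.mem_filter.mpr ⟨hQ₀, rfl⟩⟩
  obtain ⟨n, hn⟩ := hint Q₀ (MulAction.stabilizer ↥H Q₀) hcard0 (fun τ hτ => by
    rw [← hsmul]
    exact MulAction.mem_stabilizer_iff.mp hτ)
  refine ⟨D Q₀ * n, ?_⟩
  rw [hcard]
  push_cast
  rw [← hn]
  ring

/-- **the field `fixed` of `MltjSlope`** for the slope map of P6 -/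
theorem mltj8_fixed (hI : MltJ6CharI) (hII : MltJ6CharII) :
    ∀ U : Subgroup GQ, U.FiniteIndex → ∃ e : ℕ, e ≠ 0 ∧
      ∀ x : JZero (K * 𝔓.p), (∀ σ ∈ U, σ ∈ 𝔓.P.inertiaSubgroupIn ℚ → σ • x = x) →
        ∃ D : Divisor.degZero (K := Qb) (F := ↥(modularFunctionFieldBar (K * 𝔓.p))),
          Pic0.mk D = x ∧
          ∀ P ∈ mltjSS 𝔓 K hK h49, ∃ n : ℤ,
            (e : ℚ) * mltj6Sl 𝔓 K hK h49 (D : Divisor Qb _) P = n := by
  intro U hU
  haveI := hU
  set H : Subgroup 𝔓.I := U.subgroupOf 𝔓.I with hH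
  haveI : H.FiniteIndex := inferInstance
  refine ⟨H.index, Subgroup.FiniteIndex.index_ne_zero, fun x hx => ?_⟩
  have hx' : ∀ σ ∈ U ⊓ 𝔓.I, σ • x = x := fun σ hσ => hx σ hσ.1 hσ.2
  obtain ⟨D, hDx, hDstab⟩ := mltj8_exists_stable_divisor (K * 𝔓.p) (U ⊓ 𝔓.I) x hx'
  refine ⟨D, hDx, fun P hP => ?_⟩
  -- a node datum at the level `H`
  obtain ⟨ϖ, hϖ⟩ := IsDiscreteValuationRing.exists_irreducible ↥(tbFixO 𝔓 H)
  obtain ⟨n, su, hxs, hxb⟩ := s33q_exists_setup_level 𝔓 K hK h49 H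
  obtain ⟨Q', hs⟩ := mltj8_node_level 𝔓 K hK h49 H hϖ su hxs hxb hP
  set d : MltJ6NodeAt 𝔓 K hK h49 H P := mltj8NodeAt hs with hd
  have hmemU : ∀ τ : ↥H, (((τ : ↥H) : 𝔓.I) : GQ) ∈ U ⊓ 𝔓.I := fun τ =>
    ⟨Subgroup.mem_subgroupOf.mp τ.2, (τ : 𝔓.I).2⟩
  rw [mltj6Sl_apply]
  exact mltj8_sum_int 𝔓 (K * 𝔓.p) H (D : Divisor Qb _)
    (fun τ => hDstab _ (hmemU τ))
    (fun Q => mltj6Pos 𝔓 K hK h49 P Q)
    (fun τ Q => mltj8_pos_smul hI ((τ : ↥H) : 𝔓.I) P Q)
    (fun Q S hS0 hS => mltj8_orbit_int hI hII d Q S hS0 hS)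

end Main

end Fermat.Agent.MLT
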