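/-
MLT / [L2] / P8 (helper1), part 8: **the two small Galois contracts of helper8's `P6/LawDef.lean`**.

* `mltj8_exists_fixing` : the elements of the inertia group fixing a number field pointwise contain a subgroup of
                          finite index;
* **`mltj8_levelFix : MltJ6LevelFix`** : every finite set of places of `F̄ / ℚ̄` is fixed pointwise by a finite index
                          subgroup `H' ≤ H` of the inertia group (`mltj8_place_open`);
* **`mltj8_valRat : MltJ6ValRat`** : the values at an `H`-stable place of the functions of `F_H` lie in `L_H`.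

(`MltJ6PlaceUniq` is helper2's `mltj7_placeUniq : MltJ6ValRat → MltJ6PlaceUniq`.)
-/
import Mathlib
import Fermat.Agent.Lib.MLT.L2.P6.LawDef
import Fermat.Agent.Lib.MLT.L2.P8.Fixed

set_option autoImplicit false
set_option linter.unusedSectionVars false
set_option linter.unusedVariables false
set_option linter.style.haveILetI false
set_option synthInstance.maxHeartbeats 400000
set_option maxHeartbeats 1000000

open HahnSeries ModularCurve Fermat.Agent.T1 Fermat.Agent.T2 Fermat.Agent.T4 Fermat.Agent.TW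
  Fermat.Agent.S05Lib Fermat.Agent.S24Lib IntermediateField AlgebraicCurve Fermat.Agent.Curve Module
  Fermat.Agent.S33 Fermat.Agent.S33Q Fermat.Agent.Delta Fermat.Agent.Curve.PlaceAux Fermat.Agent.T3
  Fermat.Agent.Alpha

noncomputable section

namespace Fermat.Agent.MLT

local notation "Qb" => AlgebraicClosure ℚ
local notation "GQ" => (AlgebraicClosure ℚ ≃ₐ[ℚ] AlgebraicClosure ℚ)

attribute [local instance] t2i_dvr t2i_isAlgClosed t2i_charP t2i_fact
attribute [local instance 10000] dliAlgF dliAlgE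

/-- the elements of the inertia group fixing a number field pointwise contain a subgroup of finite index -/
theorem mltj8_exists_fixing (𝔓 : FFPlace) (L : IntermediateField ℚ Qb) [FiniteDimensional ℚ L] :
    ∃ H : Subgroup 𝔓.I, H.FiniteIndex ∧ ∀ σ : 𝔓.I, σ ∈ H → ∀ a ∈ L, ((σ : 𝔓.I) : GQ) a = a := by
  classical
  set b := Module.finBasis ℚ ↥L with hb
  obtain ⟨H, hH, hS⟩ := tb_exists_finiteIndex_fix 𝔓
    (Finset.univ.image (fun i => ((b i : ↥L) : Qb)))
  refine ⟨H, hH, fun σ hσ a ha => ?_⟩
  have hbi : ∀ i, ((σ : 𝔓.I) : GQ) ((b i : ↥L) : Qb) = ((b i : ↥L) : Qb) := fun i =>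
    (mem_tbFix 𝔓 H _).mp (hS _ (Finset.mem_image_of_mem _ (Finset.mem_univ i))) σ hσ
  have key : ∀ x : ↥L, ((σ : 𝔓.I) : GQ) (x : Qb) = (x : Qb) := by
    intro x
    have h2 : (x : Qb) = ∑ i, algebraMap ℚ Qb (b.repr x i) * ((b i : ↥L) : Qb) := by
      have h3 : ((∑ i, b.repr x i • b i : ↥L) : Qb) = (x : Qb) := congrArg Subtype.val (b.sum_repr x)
      rw [← h3, AddSubmonoidClass.coe_finsetSum]
      refine Finset.sum_congr rfl fun i _ => ?_
      rw [IntermediateField.coe_smul, Algebra.smul_def]
    rw [h2, map_sum]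
    refine Finset.sum_congr rfl fun i _ => ?_
    rw [map_mul, hbi i, AlgEquiv.commutes]
  exact key ⟨a, ha⟩

/-- **(A)**: every finite set of places of `F̄ / ℚ̄` is fixed pointwise by a finite index subgroup `H' ≤ H` of the
inertia group -/
theorem mltj8_levelFix : MltJ6LevelFix := by
  classical
  intro 𝔓 N _ H _ S
  induction S using Finset.induction with
  | empty => exact ⟨H, inferInstance, le_refl _, fun σ _ Q hQ => absurd hQ (Finset.notMem_empty Q)⟩
  | insert Q S _ ih =>
    obtain ⟨H₁, hH₁, hle, hfix⟩ := ih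
    obtain ⟨L, hL, hLQ⟩ := mltj8_place_open N Q
    haveI := hL
    obtain ⟨H₂, hH₂, hfix₂⟩ := mltj8_exists_fixing 𝔓 L
    haveI := hH₁
    haveI := hH₂
    refine ⟨H₁ ⊓ H₂, inferInstance, inf_le_left.trans hle, fun σ hσ Q' hQ' => ?_⟩
    rcases Finset.mem_insert.mp hQ' with rfl | hQ'
    · exact hLQ _ (hfix₂ σ hσ.2)
    · exact hfix σ hσ.1 Q' hQ'

/-- **(B)**: the values at an `H`-stable place of the functions of `F_H` lie in `L_H` -/
theorem mltj8_valRat : MltJ6ValRat := by
  intro 𝔓 N _ H Q hQ f θ hθ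
  rw [mem_tbFix]
  intro σ hσ
  have h1 := mltj8_value_smul N ((σ : 𝔓.I) : GQ) Q _ θ hθ
  rw [hQ σ hσ, alpi_smul_tbPhiF 𝔓 N H hσ] at h1
  exact (const_unique_of_ordGE_one Q hθ h1).symm

end Fermat.Agent.MLT
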