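/-
MLT / [L2] / P8 (helper1), part 5: **a horizontal valuation ring passes through exactly one closed point of the
special fibre** (the base is henselian), and the places of the first component are separated by the chart ring.

* `mltj8_through_unique` : `V ∈ through 𝔫 ∩ through 𝔫'`, `V` horizontal, (FIN-X) at `𝔫`, (HENS) ⟹ `𝔫 = 𝔫'`;
* `mltj8_n₁_injective`   : `n₁ P = n₁ Q` ⟹ `P = Q`;
* **`mltj8_not_through_of_ne`** : a place of `X₀(K q)_{ℚ̄}` through the node over `P` of chart 1 at the level `H`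
  does not pass through the node over `P' ≠ P` (same chart).
-/
import Mathlib
import Fermat.Agent.Lib.MLT.L2.P8.Nodes
import Fermat.Agent.Lib.T3.Red.Interp

set_option autoImplicit false
set_option linter.unusedSectionVars false
set_option linter.unusedVariables false
set_option linter.style.haveILetI false
set_option synthInstance.maxHeartbeats 400000
set_option maxHeartbeats 1000000

open HahnSeries ModularCurve Fermat.Agent.T1 Fermat.Agent.T2 Fermat.Agent.T4 Fermat.Agent.TW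
  Fermat.Agent.S05Lib Fermat.Agent.S24Lib IntermediateField AlgebraicCurve Fermat.Agent.Curve Module
  Fermat.Agent.S33 Fermat.Agent.S33Q Fermat.Agent.Delta Fermat.Agent.Curve.PlaceAux Fermat.Agent.T3

noncomputable section

namespace Fermat.Agent.MLT

local notation "Qb" => AlgebraicClosure ℚ
local notation "GQ" => (AlgebraicClosure ℚ ≃ₐ[ℚ] AlgebraicClosure ℚ)

section Abs

variable {L k : Type*} [Field L] [Field k] {B : DlBase L k} {F κ₁ κ₂ : Type*} [Field F]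
  [Algebra L F] [Field κ₁] [Algebra k κ₁] [Field κ₂] [Algebra k κ₂] [IsAlgClosed k]
  {g₁ : DlPlace B F κ₁} {g₂ : DlPlace B F κ₂} {σ : Type*} [Fintype σ] (C : DlxChart g₁ g₂ σ)

/-- **a horizontal valuation ring passes through at most one closed point** -/
theorem mltj8_through_unique (hens : DltHens B.A F) {𝔫 𝔫' : Ideal ↥C.P.B} [h𝔫 : 𝔫.IsMaximal]
    [h𝔫' : 𝔫'.IsMaximal] (hfin : C.FinAt 𝔫) {V : ValuationSubring F} (hV : V ∈ C.P.through 𝔫)
    (hV' : V ∈ C.P.through 𝔫') (hhor : V ∈ t4vpHor L C.x) : 𝔫 = 𝔫' := by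
  by_contra hne
  have hnle : ¬ 𝔫' ≤ 𝔫 := fun hle => hne (h𝔫'.eq_of_le h𝔫.ne_top hle).symm
  obtain ⟨c, hc', hc⟩ := Set.not_subset.mp hnle
  obtain ⟨S, hS, hf⟩ := hfin V hV hhor
  obtain ⟨c', hcc'⟩ := dlt_exists_inv_mod B.A C.P (fun a ha => C.algebraMap_mem_B ⟨a, ha⟩) V hV.1
    (fun a => t4vp_algebraMap_mem_hor hhor a) S hS hf hens 𝔫 hV hc
  have h1 : c * c' - 1 ∈ 𝔫' := hV'.2 (c * c' - 1) hcc'
  have h2 : (1 : ↥C.P.B) ∈ 𝔫' := by
    have h3 := 𝔫'.sub_mem (𝔫'.mul_mem_right c' hc') h1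
    rwa [sub_sub_cancel] at h3
  exact h𝔫'.ne_top ((Ideal.eq_top_iff_one _).mpr h2)

/-- **the chart ring separates the places of the first component** -/
theorem mltj8_n₁_injective {P Q : Place k κ₁} (hP : 0 ≤ P.ord C.G.x.1) (hQ : 0 ≤ Q.ord C.G.x.1)
    (h : C.n₁ P hP = C.n₁ Q hQ) : P = Q := by
  classical
  by_contra hne
  haveI := C.G.sep₁
  obtain ⟨u, hu, huQ, huT⟩ := t3a_exists_indicator_ded C.G.gen₁ ({P, Q} : Finset (Place k κ₁))
    (by
      intro R hR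
      rcases Finset.mem_insert.mp hR with rfl | hR
      · exact hP
      · rw [Finset.mem_singleton] at hR
        rw [hR]; exact hQ)
    Q (by simp)
  have huP : OrdGE P u 1 := huT P (by simp) hne
  obtain ⟨g, hg⟩ := C.G.hα u hu
  obtain ⟨b, hb1, hb2⟩ := C.exists_lift hg
  have hb1' : C.res₁ b = u := hb1
  have hbP : b ∈ C.n₁ P hP := by
    rw [DlxChart.mem_n₁_iff, hb1']
    rcases (ordGE_iff P).mp huP with h0 | h0
    · exact Or.inl h0
    · exact Or.inr (by omega)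
  have hbQ : b ∉ C.n₁ Q hQ := by
    rw [DlxChart.mem_n₁_iff, hb1']
    intro h0
    have hQ1 : OrdGE Q (u - algebraMap k κ₁ 1) 1 := by rw [map_one]; exact huQ
    have hQ0 : OrdGE Q (u - algebraMap k κ₁ 0) 1 := by
      rw [map_zero, sub_zero]
      exact (ordGE_iff Q).mpr (h0.imp id (fun h => by omega))
    exact one_ne_zero (const_unique_of_ordGE_one Q hQ1 hQ0)
  rw [h] at hbP
  exact hbQ hbP

end Abs

attribute [local instance] t2i_dvr t2i_isAlgClosed t2i_charP t2i_fact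
attribute [local instance 10000] dliAlgF dliAlgE

section Inst

variable {𝔓 : FFPlace} {K : ℕ} [NeZero K] {hK : ¬ 𝔓.p ∣ K} {h49 : 4 ∣ K ∨ 9 ∣ K}
  {H : Subgroup 𝔓.I} [H.FiniteIndex] {ϖ : ↥(tbFixO 𝔓 H)} {hϖ : Irreducible ϖ} {n : ℕ}
  {su : T2Setup (t2iBase2Fix 𝔓 H K hK) (Fin n)}
  {hx : su.x = t2gaX 𝔓 H K hK (𝔓.p ^ 2)} {hxb : su.xb = (s33qXi 𝔓 K, s33qXi 𝔓 K)}

/-- the horizontal valuation rings through a node of chart 1 are horizontal valuation rings of the chart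
passing through the closed point -/
theorem mltj8_hor_chart {P Q' : Place (IsLocalRing.ResidueField ↥𝔓.P) ↥(tbBarF 𝔓 K)}
    (hs : (P, Q') ∈ (dlxChart1 𝔓 H hϖ K hK h49 su hx hxb).G.nodes)
    {V : ValuationSubring ↥(tbLevF 𝔓 (K * 𝔓.p) H)}
    (hV : V ∈ (mltj8NodeAt hs).𝒩.hor) :
    V ∈ (dlxChart1 𝔓 H hϖ K hK h49 su hx hxb).P.through
        ((dlxChart1 𝔓 H hϖ K hK h49 su hx hxb).n₁ P
          (DlxChart.node_fin₁ (s := (P, Q')) (dlxChart1 𝔓 H hϖ K hK h49 su hx hxb) hs)) ∧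
      V ∈ t4vpHor ↥(tbFix 𝔓 H) (dlxChart1 𝔓 H hϖ K hK h49 su hx hxb).x := by
  set C := dlxChart1 𝔓 H hϖ K hK h49 su hx hxb with hC
  have h𝒩 := (mltj8NodeAt hs).h𝒩
  have hhor : V ∈ DlLocal.hor (C.toLocal hs (dlxChart1_finAt 𝔓 H hϖ K hK h49 su hx hxb _ _)
      (dlx_hensH 𝔓 H hϖ K)) := by
    have h1 : V ∈ DlLocal.hor (mltj8NodeAt hs).𝒩.toDlLocal := hV
    rw [h𝒩] at h1
    exact h1
  obtain ⟨h1, h2, h3⟩ := hhor
  have h1' : V ∈ C.P.through (C.n₁ P (DlxChart.node_fin₁ (s := (P, Q')) C hs)) := h1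
  refine ⟨h1', ?_⟩
  rcases C.vals_cases h1'.1 with h4 | h4 | h4
  · exact absurd h4 h2
  · exact absurd h4 h3
  · exact h4

/-- **exclusivity**: a place through the node over `P` does not pass through the node over `P' ≠ P` -/
theorem mltj8_not_through_of_ne
    {P P' Q₁ Q₂ : Place (IsLocalRing.ResidueField ↥𝔓.P) ↥(tbBarF 𝔓 K)}
    (hs : (P, Q₁) ∈ (dlxChart1 𝔓 H hϖ K hK h49 su hx hxb).G.nodes)
    (hs' : (P', Q₂) ∈ (dlxChart1 𝔓 H hϖ K hK h49 su hx hxb).G.nodes) (hne : P ≠ P')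
    (y : Place Qb ↥(modularFunctionFieldBar (K * 𝔓.p)))
    (hy : mltj6Through (mltj8NodeAt hs) y) : ¬ mltj6Through (mltj8NodeAt hs') y := by
  intro hy'
  obtain ⟨h1, h2⟩ := mltj8_hor_chart hs hy
  obtain ⟨h1', -⟩ := mltj8_hor_chart hs' hy'
  set C := dlxChart1 𝔓 H hϖ K hK h49 su hx hxb with hC
  have h3 := mltj8_through_unique C (dlx_hensH 𝔓 H hϖ K)
    (dlxChart1_finAt 𝔓 H hϖ K hK h49 su hx hxb P (DlxChart.node_fin₁ (s := (P, Q₁)) C hs)) h1 h1' h2
  exact hne (mltj8_n₁_injective C _ _ h3)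

end Inst

end Fermat.Agent.MLT
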