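/-
MLT / [L2] / P8 (helper1), part 2: **tame levels of arbitrary ramification** (for (S5): positions `1/m`).

`𝔓` a place of `ℚ̄` over `p`, `m ≥ 1`, `π ∈ ℚ̄` with `π^m = p`, `H_m = mltj8H 𝔓 π` the stabiliser of `π` in the
inertia group:
* `mltj8_is_root`       : `v(π) = 1/m`;
* `mltj8_index`         : `[I : H_m] = m`;
* `mltj8_irreducible`   : `π` is a uniformiser of `O_{H_m}`;
* **`mltj8_exists_level`** : for every `m ≥ 1` there are `H ≤ I` of finite index `m` and a uniformiser `ϖ` of `O_H`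
  with `p = ϖ^m` (the shape `p = η ϖ^e` consumed by `dlxVertD_ord_zero_of_unif`) and `v(ϖ) = 1/m`.
-/
import Mathlib
import Fermat.Agent.Lib.T4.Inst.CycVal

set_option autoImplicit false
set_option linter.unusedSectionVars false
set_option linter.unusedVariables false
set_option linter.style.haveILetI false

open Fermat.Agent.T1 Fermat.Agent.TW Fermat.Agent.S05Lib Fermat.Agent.T4 Polynomial

noncomputable section

namespace Fermat.Agent.MLT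

local notation "Qb" => AlgebraicClosure ℚ
local notation "GQ" => (AlgebraicClosure ℚ ≃ₐ[ℚ] AlgebraicClosure ℚ)

variable (𝔓 : FFPlace)

/-- the stabiliser of `π` in the inertia group -/
def mltj8H (π : Qb) : Subgroup 𝔓.I := MulAction.stabilizer ↥𝔓.I π

instance mltj8H_finiteIndex (π : Qb) : (mltj8H 𝔓 π).FiniteIndex := tb_finiteIndex_stabilizer 𝔓 π

theorem mem_mltj8H {π : Qb} (σ : 𝔓.I) : σ ∈ mltj8H 𝔓 π ↔ ((σ : 𝔓.I) : GQ) π = π :=
  MulAction.mem_stabilizer_iff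

theorem mltj8_mem_tbFix (π : Qb) : π ∈ tbFix 𝔓 (mltj8H 𝔓 π) := by
  rw [mem_tbFix]
  intro σ hσ
  exact (mem_mltj8H 𝔓 σ).mp hσ

variable {m : ℕ} (hm : m ≠ 0) {π : Qb} (hπ : π ^ m = (𝔓.p : Qb))

include hm hπ in
/-- `v(π) = 1/m` -/
theorem mltj8_is_root : 𝔓.v.Is π (1 / (m : ℚ)) := by
  have hπ0 : π ≠ 0 := by
    rintro rfl
    rw [zero_pow hm] at hπ
    exact 𝔓.p_ne_zero hπ.symm
  have h1 := (QVal.is_ord (v := 𝔓.v) hπ0).pow m
  rw [hπ] at h1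
  have h2 := h1.unique 𝔓.is_p
  refine ⟨hπ0, ?_⟩
  have hm' : (m : ℚ) ≠ 0 := by exact_mod_cast hm
  rw [eq_div_iff hm', mul_comm]
  exact h2

include hm hπ in
theorem mltj8_orbit_subset :
    MulAction.orbit ↥𝔓.I π ⊆ ((X ^ m - C (𝔓.p : Qb) : Qb[X]).roots.toFinset : Set Qb) := by
  rintro _ ⟨σ, rfl⟩
  have hne : (X ^ m - C (𝔓.p : Qb) : Qb[X]) ≠ 0 := X_pow_sub_C_ne_zero (Nat.pos_of_ne_zero hm) _
  rw [Finset.mem_coe, Multiset.mem_toFinset, mem_roots hne, IsRoot.def, eval_sub, eval_pow, eval_X,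
    eval_C, sub_eq_zero]
  show (((σ : 𝔓.I) : GQ) π) ^ m = _
  rw [← map_pow, hπ, map_natCast]

include hm hπ in
/-- `[I : H_m] = m` -/
theorem mltj8_index : (mltj8H 𝔓 π).index = m := by
  classical
  have hmpos : (0 : ℚ) < (m : ℚ) := by exact_mod_cast Nat.pos_of_ne_zero hm
  refine le_antisymm ?_ ?_
  · unfold mltj8H
    rw [MulAction.index_stabilizer]
    refine (Set.ncard_le_ncard (mltj8_orbit_subset 𝔓 hm hπ) (Finset.finite_toSet _)).trans ?_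
    rw [Set.ncard_coe_finset]
    refine (Multiset.toFinset_card_le _).trans ?_
    refine (Polynomial.card_roots' _).trans ?_
    rw [natDegree_X_pow_sub_C]
  · have hz : (⟨π, mltj8_mem_tbFix 𝔓 π⟩ : ↥(tbFix 𝔓 (mltj8H 𝔓 π))) ≠ 0 := by
      intro h
      have := congrArg Subtype.val h
      exact (mltj8_is_root 𝔓 hm hπ).1 this
    obtain ⟨n, hn⟩ := tb_index_mul_ord 𝔓 (mltj8H 𝔓 π) _ hz
    simp only [(mltj8_is_root 𝔓 hm hπ).2] at hn
    have hn' : ((mltj8H 𝔓 π).index : ℚ) = n * (m : ℚ) := by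
      field_simp at hn
      rw [hn, mul_comm]
    have hipos : 0 < (mltj8H 𝔓 π).index := tb_index_pos 𝔓 _
    have hnpos : 0 < n := by
      by_contra hcon
      have h0 : (n : ℚ) ≤ 0 := by exact_mod_cast not_lt.mp hcon
      have h1 : (0 : ℚ) < ((mltj8H 𝔓 π).index : ℚ) := by exact_mod_cast hipos
      rw [hn'] at h1
      nlinarith
    have h1 : (1 : ℚ) ≤ n := by exact_mod_cast hnpos
    have h2 : (m : ℚ) ≤ ((mltj8H 𝔓 π).index : ℚ) := by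
      rw [hn']
      nlinarith
    exact_mod_cast h2

include hm hπ in
/-- `π` is a uniformiser of `O_{H_m}` -/
theorem mltj8_irreducible (ϖ : ↥(tbFixO 𝔓 (mltj8H 𝔓 π)))
    (hϖ : ((ϖ : ↥(tbFix 𝔓 (mltj8H 𝔓 π))) : Qb) = π) : Irreducible ϖ := by
  refine t4cy_irreducible 𝔓 _ ϖ ?_
  rw [hϖ, mltj8_index 𝔓 hm hπ]
  exact mltj8_is_root 𝔓 hm hπ

/-- **levels of arbitrary ramification index**: for every `m ≥ 1` there is a subgroup `H` of index `m` of the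
inertia group and a uniformiser `ϖ` of `O_H` with `ϖ^m = p`, `v(ϖ) = 1/m` -/
theorem mltj8_exists_level (m : ℕ) (hm : m ≠ 0) :
    ∃ (H : Subgroup 𝔓.I) (_ : H.FiniteIndex) (ϖ : ↥(tbFixO 𝔓 H)), H.index = m ∧ Irreducible ϖ ∧
      (𝔓.p : ↥(tbFix 𝔓 H)) = (ϖ : ↥(tbFix 𝔓 H)) ^ m ∧
      𝔓.v.Is (((ϖ : ↥(tbFixO 𝔓 H)) : ↥(tbFix 𝔓 H)) : Qb) (1 / (m : ℚ)) := by
  obtain ⟨π, hπ⟩ := IsAlgClosed.exists_pow_nat_eq (𝔓.p : Qb) (Nat.pos_of_ne_zero hm)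
  have his := mltj8_is_root 𝔓 hm hπ
  have hmpos : (0 : ℚ) < 1 / (m : ℚ) := by
    have : (0 : ℚ) < (m : ℚ) := by exact_mod_cast Nat.pos_of_ne_zero hm
    positivity
  have hmem : (⟨π, mltj8_mem_tbFix 𝔓 π⟩ : ↥(tbFix 𝔓 (mltj8H 𝔓 π))) ∈ tbFixO 𝔓 (mltj8H 𝔓 π) := by
    rw [mem_tbFixO]
    exact (his.gt hmpos).ge
  refine ⟨mltj8H 𝔓 π, inferInstance, ⟨⟨π, mltj8_mem_tbFix 𝔓 π⟩, hmem⟩, mltj8_index 𝔓 hm hπ,
    mltj8_irreducible 𝔓 hm hπ _ rfl, ?_, his⟩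
  apply Subtype.ext
  show ((𝔓.p : ↥(tbFix 𝔓 (mltj8H 𝔓 π))) : Qb) = _
  rw [SubmonoidClass.coe_pow]
  show _ = π ^ m
  rw [hπ]
  simp

end Fermat.Agent.MLT
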