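/-
MLT / [L2] / P8 (helper1), part 6: **the field `surj` of `MltjSlope`** for the slope map `mltj6Sl` of P6.

* `mltj8_exists_place_above` : a discrete valuation ring of `F_H(N)` containing the constants is the restriction
  of a place of `F_{ℚ̄}(N)` (CFE, `t4ru_cfe_fix`);
* `mltj8_exists_point`       : (CHAR-I) ⟹ for `c ∈ L_H` with `0 < v_H(c) < w` there is a place `y` of `X₀(K q)_{ℚ̄}`
  through the node with `pos_P(y) = 1 - v(c)` (helper8's `mltj6_exists_valAt`);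
* **`mltj8_surj`**           : (CHAR-I, II) ⟹ the literal field `surj` of `MltjSlope`: at the level `H_m` of
  ramification index `m = N + 3` (`mltj8_exists_level`), `D = y₁ - y₂`, `t(y₁) = ϖ`, `t(y₂) = ϖ²`:
  `sl(D)_Q = 1/m`, `sl(D)_P = 0` for `P ≠ Q` (a horizontal valuation ring passes through one closed point only).
-/
import Mathlib
import Fermat.Agent.Lib.MLT.L2.P8.Excl
import Fermat.Agent.Lib.MLT.L2.P8.Levels
import Fermat.Agent.Lib.Delta.Core.HorX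

set_option autoImplicit false
set_option linter.unusedSectionVars false
set_option linter.unusedVariables false
set_option linter.style.haveILetI false
set_option synthInstance.maxHeartbeats 400000
set_option maxHeartbeats 1000000

open HahnSeries ModularCurve Fermat.Agent.T1 Fermat.Agent.T2 Fermat.Agent.T4 Fermat.Agent.TW
  Fermat.Agent.S05Lib Fermat.Agent.S24Lib IntermediateField AlgebraicCurve Fermat.Agent.Curve Module
  Fermat.Agent.S33 Fermat.Agent.S33Q Fermat.Agent.Delta Fermat.Agent.Curve.PlaceAux Fermat.Agent.T3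

noncomputable section

namespace Fermat.Agent.MLT

local notation "Qb" => AlgebraicClosure ℚ
local notation "GQ" => (AlgebraicClosure ℚ ≃ₐ[ℚ] AlgebraicClosure ℚ)

attribute [local instance] t2i_dvr t2i_isAlgClosed t2i_charP t2i_fact
attribute [local instance 10000] dliAlgF dliAlgE

section Above

variable {𝔓 : FFPlace} (N : ℕ) [NeZero N] (H : Subgroup 𝔓.I)

/-- a discrete valuation ring of `F_H(N)` containing the constants is the restriction of a place of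
`F_{ℚ̄}(N)`, with the same order function -/
theorem mltj8_exists_place_above (V : ValuationSubring ↥(tbLevF 𝔓 N H))
    [IsDiscreteValuationRing ↥V]
    (hV : ∀ a : ↥(tbFix 𝔓 H), algebraMap ↥(tbFix 𝔓 H) ↥(tbLevF 𝔓 N H) a ∈ V) :
    ∃ y : Place Qb ↥(modularFunctionFieldBar N), mltj6Res H N y = V ∧
      ∀ f : ↥(tbLevF 𝔓 N H), y.ord (tbPhiF 𝔓 N H f) = dlOrd V f := by
  obtain ⟨v, hv⟩ := dlqh_place_of_dvr (K := ↥(tbFix 𝔓 H)) V hV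
  subst hv
  obtain ⟨y, hy⟩ := t4ru_cfe_fix 𝔓 H N v
  refine ⟨y, ?_, fun f => hy f⟩
  ext f
  rw [mem_mltj6Res, PlaceAux.mem_iff, hy f, PlaceAux.mem_iff, map_eq_zero]

end Above

section Point

variable {𝔓 : FFPlace} {K : ℕ} [NeZero K] {hK : ¬ 𝔓.p ∣ K} {h49 : 4 ∣ K ∨ 9 ∣ K}
  {H : Subgroup 𝔓.I} [H.FiniteIndex]
  {P : Place (IsLocalRing.ResidueField ↥𝔓.P) ↥(tbBarF 𝔓 K)}

/-- **the point of the annulus with the coordinate value `c`** -/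
theorem mltj8_exists_point (hI : MltJ6CharI) (d : MltJ6NodeAt 𝔓 K hK h49 H P) {c : ↥(tbFix 𝔓 H)}
    (hc : c ≠ 0) (hj : 0 < dlOrd d.𝒩.O c) (hjw : dlOrd d.𝒩.O c < d.𝒩.w) :
    ∃ y : Place Qb ↥(modularFunctionFieldBar (K * 𝔓.p)), mltj6Through d y ∧
      mltj6Pos 𝔓 K hK h49 P y = 1 - 𝔓.v.ord (c : Qb) := by
  obtain ⟨V, hV⟩ := mltj6_exists_valAt d.𝒩 hc hj hjw
  haveI := d.𝒩.P.dvr V hV.hor.1
  obtain ⟨y, hyV, hyord⟩ := mltj8_exists_place_above (K * 𝔓.p) H V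
    (fun a => d.𝒩.toDlLocal.hor_const hV.hor a)
  have hthr : mltj6Through d y := by
    unfold mltj6Through
    rw [hyV]
    exact hV.hor
  refine ⟨y, hthr, ?_⟩
  refine mltj8_pos_eq hI d y hthr (c : Qb) ?_
  have hne : d.𝒩.t - algebraMap ↥(tbFix 𝔓 H) ↥(tbLevF 𝔓 (K * 𝔓.p) H) c ≠ 0 :=
    mltj6_valAt_sub_ne_zero hV
  have h1 : 0 < dlOrd V (d.𝒩.t - algebraMap ↥(tbFix 𝔓 H) ↥(tbLevF 𝔓 (K * 𝔓.p) H) c) :=
    (dl_valuation_lt_one_iff V hne).mp hV.val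
  have h2 := hyord (d.𝒩.t - algebraMap ↥(tbFix 𝔓 H) ↥(tbLevF 𝔓 (K * 𝔓.p) H) c)
  rw [map_sub] at h2
  have h3 : tbPhiF 𝔓 (K * 𝔓.p) H (algebraMap ↥(tbFix 𝔓 H) ↥(tbLevF 𝔓 (K * 𝔓.p) H) c)
      = algebraMap Qb ↥(modularFunctionFieldBar (K * 𝔓.p)) (c : Qb) :=
    tbPhiF_algebraMap 𝔓 (K * 𝔓.p) H c
  rw [h3] at h2
  rw [ordGE_iff]
  right
  rw [h2]
  omega

end Point

section Main

variable (𝔓 : FFPlace) (K : ℕ) [NeZero K] (hK : ¬ 𝔓.p ∣ K) (h49 : 4 ∣ K ∨ 9 ∣ K)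

theorem mltj8_sub_mem_degZero (N : ℕ) [NeZero N] (x y : Place Qb ↥(modularFunctionFieldBar N)) :
    (Finsupp.single x 1 - Finsupp.single y 1 : Divisor Qb ↥(modularFunctionFieldBar N))
      ∈ Divisor.degZero (K := Qb) (F := ↥(modularFunctionFieldBar N)) := by
  rw [Divisor.mem_degZero, map_sub, Divisor.degree_single, Divisor.degree_single,
    PlaceAux.deg_eq_one (t3h_gen N) x, PlaceAux.deg_eq_one (t3h_gen N) y]
  simp

/-- **the field `surj` of `MltjSlope`** for the slope map of P6 -/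
theorem mltj8_surj (hI : MltJ6CharI) (hII : MltJ6CharII) :
    ∀ Q ∈ mltjSS 𝔓 K hK h49, ∀ N : ℕ, ∃ (m : ℕ) (a : ℤ), N < m ∧ IsCoprime a (m : ℤ) ∧
      ∃ D : Divisor.degZero (K := Qb) (F := ↥(modularFunctionFieldBar (K * 𝔓.p))),
        mltj6Sl 𝔓 K hK h49 (D : Divisor Qb _) Q = (a : ℚ) / m ∧
          ∀ P ∈ mltjSS 𝔓 K hK h49, P ≠ Q → mltj6Sl 𝔓 K hK h49 (D : Divisor Qb _) P = 0 := by
  intro Q hQ N₀
  obtain ⟨H, hfin, ϖ, hidx, hϖ, hpe, hvϖ⟩ := mltj8_exists_level 𝔓 (N₀ + 3) (by omega)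
  haveI := hfin
  obtain ⟨n, su, hxs, hxb⟩ := s33q_exists_setup_level 𝔓 K hK h49 H
  obtain ⟨Q', hs⟩ := mltj8_node_level 𝔓 K hK h49 H hϖ su hxs hxb hQ
  set d : MltJ6NodeAt 𝔓 K hK h49 H Q := mltj8NodeAt hs with hd
  -- the thickness
  have hw : d.𝒩.w = N₀ + 3 := by
    refine mltj6_thick d (η := 1) isUnit_one ?_
    rw [hpe]
    simp only [OneMemClass.coe_one, one_mul]
    rfl
  -- the constants
  have hϖ' : d.𝒩.ϖ = ((ϖ : ↥(tbFixO 𝔓 H)) : ↥(tbFix 𝔓 H)) := congrArg DlLocal.ϖ d.h𝒩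
  have h1 : dlOrd d.𝒩.O ((ϖ : ↥(tbFixO 𝔓 H)) : ↥(tbFix 𝔓 H)) = 1 := by
    rw [← hϖ']
    exact dln_ord_of_unif d.𝒩.O d.𝒩.hϖ
  have h2 : dlOrd d.𝒩.O (((ϖ : ↥(tbFixO 𝔓 H)) : ↥(tbFix 𝔓 H)) ^ 2) = 2 := by
    rw [dlOrd_pow, h1]
    norm_num
  have hϖ0 : ((ϖ : ↥(tbFixO 𝔓 H)) : ↥(tbFix 𝔓 H)) ≠ 0 := by
    intro h0
    exact hϖ.ne_zero (Subtype.ext h0)
  obtain ⟨y₁, hy₁, hp₁⟩ := mltj8_exists_point hI d hϖ0 (by rw [h1]; norm_num)
    (by rw [h1, hw]; push_cast; omega)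
  obtain ⟨y₂, hy₂, hp₂⟩ := mltj8_exists_point hI d (pow_ne_zero 2 hϖ0) (by rw [h2]; norm_num)
    (by rw [h2, hw]; push_cast; omega)
  have hv1 : 𝔓.v.ord (((ϖ : ↥(tbFixO 𝔓 H)) : ↥(tbFix 𝔓 H)) : Qb) = 1 / ((N₀ + 3 : ℕ) : ℚ) := hvϖ.2
  have hv2 : 𝔓.v.ord (((((ϖ : ↥(tbFixO 𝔓 H)) : ↥(tbFix 𝔓 H)) ^ 2 : ↥(tbFix 𝔓 H)) : Qb))
      = 2 / ((N₀ + 3 : ℕ) : ℚ) := by
    have h3 := (hvϖ.pow 2).2
    rw [SubmonoidClass.coe_pow, h3]
    push_cast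
    ring
  rw [hv1] at hp₁
  rw [hv2] at hp₂
  refine ⟨N₀ + 3, 1, by omega, isCoprime_one_left,
    ⟨Finsupp.single y₁ 1 - Finsupp.single y₂ 1, mltj8_sub_mem_degZero (K * 𝔓.p) y₁ y₂⟩, ?_, ?_⟩
  · show mltj6Sl 𝔓 K hK h49 (Finsupp.single y₁ 1 - Finsupp.single y₂ 1) Q = _
    rw [map_sub, Pi.sub_apply, mltj6Sl_single, mltj6Sl_single, hp₁, hp₂]
    push_cast
    ring
  · intro P hP hne
    obtain ⟨Q'', hs'⟩ := mltj8_node_level 𝔓 K hK h49 H hϖ su hxs hxb hP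
    have hn1 := mltj8_not_through_of_ne hs hs' (Ne.symm hne) y₁ hy₁
    have hn2 := mltj8_not_through_of_ne hs hs' (Ne.symm hne) y₂ hy₂
    show mltj6Sl 𝔓 K hK h49 (Finsupp.single y₁ 1 - Finsupp.single y₂ 1) P = _
    rw [map_sub, Pi.sub_apply, mltj6Sl_single, mltj6Sl_single,
      hII 𝔓 K hK h49 H P (mltj8NodeAt hs') y₁ hn1, hII 𝔓 K hK h49 H P (mltj8NodeAt hs') y₂ hn2]
    simp

end Main

end Fermat.Agent.MLT
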