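/-
MLT / [L2] / P8 (helper1), part 7: **assembly of `MltjSlope`** (helper9's P0 v2 literal, `Contracts/L2JL.lean`)
from the slope map `mltj6Sl` of P6 (helper8), with `w = 1` (THICK at the level `⊤`):

* `Mltj8PrincAt`  : the field `princ` for `sl := mltj6Sl`, `w := 1` (owner P6, helper8);
* `Mltj8HeckeAt`  : the field `hecke` for `sl := mltj6Sl` (owner P7, helper2);
* **`mltj8Slope`** : `MltJ6CharI → MltJ6CharII → Mltj8PrincAt → Mltj8HeckeAt → MltjSlope 𝔓 K hK h49`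
  (`fixed := mltj8_fixed`, `surj := mltj8_surj`);
* `mltj8_slopeEx` : the global form `MltjSlopeEx`.
-/
import Mathlib
import Fermat.Agent.Lib.MLT.L2.P8.Fixed
import Fermat.Agent.Lib.MLT.L2.P8.Surj

set_option autoImplicit false
set_option linter.unusedSectionVars false
set_option linter.unusedVariables false
set_option linter.style.haveILetI false
set_option synthInstance.maxHeartbeats 400000
set_option maxHeartbeats 1000000

open HahnSeries ModularCurve Fermat.Agent.T1 Fermat.Agent.T2 Fermat.Agent.T4 Fermat.Agent.TW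
  Fermat.Agent.S05Lib Fermat.Agent.S24Lib IntermediateField AlgebraicCurve Fermat.Agent.Curve Module
  Fermat.Agent.S33 Fermat.Agent.S33Q Fermat.Agent.Delta Fermat.Agent.Curve.PlaceAux Fermat.Agent.T3
  Fermat.Agent.Alpha Fermat.Agent.Ihara Fermat.Agent.Mazur

noncomputable section

namespace Fermat.Agent.MLT

local notation "Qb" => AlgebraicClosure ℚ
local notation "GQ" => (AlgebraicClosure ℚ ≃ₐ[ℚ] AlgebraicClosure ℚ)

attribute [local instance] t2i_dvr t2i_isAlgClosed t2i_charP t2i_fact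
attribute [local instance 5000] dlhAlgK

section Defs

variable (𝔓 : FFPlace) (K : ℕ) [NeZero K] (hK : ¬ 𝔓.p ∣ K) (h49 : 4 ∣ K ∨ 9 ∣ K)

/-- **(S2) for the slope map of P6**, normalised positions (`w = 1`): the slope vector of a principal divisor
is an integral vector up to a common constant -/
def Mltj8PrincAt : Prop :=
  ∀ D : Divisor Qb ↥(modularFunctionFieldBar (K * 𝔓.p)),
    D ∈ Divisor.principal (K := Qb) (F := ↥(modularFunctionFieldBar (K * 𝔓.p))) →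
    ∃ c : ℚ, ∀ P ∈ mltjSS 𝔓 K hK h49, ∃ n : ℤ, mltj6Sl 𝔓 K hK h49 D P = c + n

/-- **(S3) for the slope map of P6**: `sl (T_ℓ D)_P = Σ_Q (β̄_* ᾱ^* P)(Q) · sl(D)_Q` -/
def Mltj8HeckeAt : Prop :=
  ∀ (ℓ : ℕ) [NeZero ℓ] (hℓ : ℓ.Prime) (hℓp : ℓ ≠ 𝔓.p), ¬ ℓ ∣ K →
    ∀ (D : Divisor Qb ↥(modularFunctionFieldBar (K * 𝔓.p))), ∀ P ∈ mltjSS 𝔓 K hK h49,
      mltj6Sl 𝔓 K hK h49
          (heckeDivBar (t3h_alphaIntegral (K * 𝔓.p) ℓ) (t3h_betaIntegral (K * 𝔓.p) ℓ) D) P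
        = (mltjBrT 𝔓 K hK ℓ hℓ hℓp (Finsupp.single P 1)).sum
            (fun Q n => (n : ℚ) * mltj6Sl 𝔓 K hK h49 D Q)

/-- **the slope structure** of helper9's P0 from the slope map of P6 -/
def mltj8Slope (hI : MltJ6CharI) (hII : MltJ6CharII) (hprinc : Mltj8PrincAt 𝔓 K hK h49)
    (hhecke : Mltj8HeckeAt 𝔓 K hK h49) : MltjSlope 𝔓 K hK h49 where
  sl := mltj6Sl 𝔓 K hK h49
  w := fun _ => 1
  w_pos := fun _ _ => Nat.one_pos
  princ := by
    intro D hD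
    obtain ⟨c, hc⟩ := hprinc D hD
    refine ⟨c, fun P hP => ?_⟩
    obtain ⟨n, hn⟩ := hc P hP
    exact ⟨n, by rw [hn]; push_cast; ring⟩
  hecke := hhecke
  fixed := mltj8_fixed 𝔓 K hK h49 hI hII
  surj := mltj8_surj 𝔓 K hK h49 hI hII

end Defs

/-- the global form: the slope map exists at all rigid levels -/
theorem mltj8_slopeEx (hI : MltJ6CharI) (hII : MltJ6CharII)
    (hprinc : ∀ (𝔓 : FFPlace) (K : ℕ) [NeZero K] (hK : ¬ 𝔓.p ∣ K) (h49 : 4 ∣ K ∨ 9 ∣ K),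
      Mltj8PrincAt 𝔓 K hK h49)
    (hhecke : ∀ (𝔓 : FFPlace) (K : ℕ) [NeZero K] (hK : ¬ 𝔓.p ∣ K) (h49 : 4 ∣ K ∨ 9 ∣ K),
      Mltj8HeckeAt 𝔓 K hK h49) : MltjSlopeEx :=
  fun 𝔓 K _ hK h49 => ⟨mltj8Slope 𝔓 K hK h49 hI hII (hprinc 𝔓 K hK h49) (hhecke 𝔓 K hK h49)⟩

end Fermat.Agent.MLT
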